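import Fermat.Agent.S55.Local.H904.Integers

/-!
# S55, layer L, pieces LF1, LF2, LF3, LF4, LF8 (helper904)

Exact `Statement`s of `Fermat/Agent/S55/Local/Spec.lean`:
* `intOrInv      : IntOrInvStatement`      (LF1)
* `existsUnif    : ExistsUnifStatement`    (LF2)
* `intUnitsComap : IntUnitsComapStatement` (LF3)
* `galoisInv     : GaloisInvStatement`     (LF4)
* `normUnitsInt  : NormUnitsIntStatement`  (LF8)
-/

set_option autoImplicit false
set_option linter.unusedSectionVars false
set_option linter.style.haveILetI false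

namespace Fermat.Agent.S55.Local.H904

open IsLocalRing

/-! ## Dictionary -/

section Dict

variable (A F : Type) [CommRing A] [Field F] [Algebra A F]
  (L : Type) [Field L] [Algebra F L]

/-- `IsInt` is integrality for the algebra structure `(toL A F L).toAlgebra`. -/
lemma isInt_iff_mem (x : L) :
    letI : Algebra A L := (toL A F L).toAlgebra
    IsInt A F L x ↔ x ∈ integralClosure A L := Iff.rfl

variable {A F L} in
/-- A unit of `L` whose value and inverse are integral is an integral unit. -/
lemma mem_intUnits_of_isInt {x : Lˣ} (h1 : IsInt A F L (x : L))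
    (h2 : IsInt A F L ((x : L)⁻¹)) : x ∈ intUnits A F L := by
  refine ⟨h1, ?_⟩
  rwa [Units.val_inv_eq_inv_val]

variable {A F L} in
lemma isInt_inv_of_mem_intUnits {x : Lˣ} (h : x ∈ intUnits A F L) :
    IsInt A F L ((x : L)⁻¹) := by
  have := h.2
  rwa [Units.val_inv_eq_inv_val] at this

variable {A F L} in
/-- Ring homomorphisms commuting with the structure maps preserve integrality. -/
lemma IsInt.map {L' : Type} [Field L'] [Algebra F L'] (φ : L →+* L')
    (hφ : ∀ a : A, φ (toL A F L a) = toL A F L' a) {x : L} (hx : IsInt A F L x) :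
    IsInt A F L' (φ x) := by
  obtain ⟨p, hp, hpx⟩ := hx
  refine ⟨p, hp, ?_⟩
  have hcomp : toL A F L' = φ.comp (toL A F L) := by
    ext a
    exact (hφ a).symm
  rw [hcomp, ← Polynomial.hom_eval₂, hpx, map_zero]

variable {A F L} in
/-- Injective ring homomorphisms commuting with the structure maps reflect integrality. -/
lemma IsInt.of_map {L' : Type} [Field L'] [Algebra F L'] (φ : L →+* L')
    (hφ : ∀ a : A, φ (toL A F L a) = toL A F L' a) {x : L} (hx : IsInt A F L' (φ x)) :
    IsInt A F L x := by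
  obtain ⟨p, hp, hpx⟩ := hx
  refine ⟨p, hp, ?_⟩
  have hcomp : toL A F L' = φ.comp (toL A F L) := by
    ext a
    exact (hφ a).symm
  rw [hcomp, ← Polynomial.hom_eval₂] at hpx
  exact φ.injective (by rw [hpx, map_zero])

end Dict

/-! ## LF1 -/

/-- (LF1) the integers of a local field form a valuation ring. -/
theorem intOrInv : IntOrInvStatement := by
  intro A F _ _ _ _ _ _ _ _ _ L _ _ _ x
  letI : Algebra A L := (toL A F L).toAlgebra
  haveI : IsScalarTower A F L := IsScalarTower.of_algebraMap_eq (fun _ => rfl)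
  haveI := lf0_isDVR A F L
  haveI := lf0_isFractionRing A F L
  rcases ValuationRing.isInteger_or_isInteger (integralClosure A L) x with ⟨b, hb⟩ | ⟨b, hb⟩
  · left
    rw [← hb]
    exact b.2
  · right
    rw [← hb]
    exact b.2

/-! ## LF3 -/

/-- (LF3) `U_L ∩ Kˣ = U_K`. -/
theorem intUnitsComap : IntUnitsComapStatement := by
  intro A F _ _ _ _ _ _ _ _ _ K _ _ _ L _ _ _ _ _ y
  have hφ : ∀ a : A, (algebraMap K L) (toL A F K a) = toL A F L a := by
    intro a
    simp only [toL_apply]
    exact (IsScalarTower.algebraMap_apply F K L _).symm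
  constructor
  · rintro ⟨h1, h2⟩
    refine ⟨IsInt.of_map (algebraMap K L) hφ (by simpa using h1), ?_⟩
    refine IsInt.of_map (algebraMap K L) hφ ?_
    have : ((unitsIncl L K y)⁻¹ : Lˣ) = unitsIncl L K y⁻¹ := (map_inv _ _).symm
    rw [this] at h2
    simpa using h2
  · rintro ⟨h1, h2⟩
    refine ⟨by simpa using IsInt.map (algebraMap K L) hφ h1, ?_⟩
    have : ((unitsIncl L K y)⁻¹ : Lˣ) = unitsIncl L K y⁻¹ := (map_inv _ _).symm
    rw [this]
    simpa using IsInt.map (algebraMap K L) hφ h2

/-! ## LF8 -/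

/-- (LF8) norms of integral units are integral units. -/
theorem normUnitsInt : NormUnitsIntStatement := by
  intro A F _ _ _ _ _ _ _ _ _ K _ _ _ L _ _ _ _ _ x hx
  letI : Algebra A L := (toL A F L).toAlgebra
  letI : Algebra A K := (toL A F K).toAlgebra
  haveI : IsScalarTower A K L := IsScalarTower.of_algebraMap_eq (fun a => by
    change toL A F L a = algebraMap K L (toL A F K a)
    simp only [toL_apply]
    exact IsScalarTower.algebraMap_apply F K L _)
  have key : ∀ z : L, IsInt A F L z → IsInt A F K (Algebra.norm K z) := fun z hz =>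
    Algebra.isIntegral_norm K (R := A) hz
  refine ⟨key _ hx.1, ?_⟩
  have : ((normUnits L K x)⁻¹ : Kˣ) = normUnits L K x⁻¹ := (map_inv _ _).symm
  rw [this]
  exact key _ hx.2

/-! ## LF4 -/

section Galois

variable (A F : Type) [CommRing A] [Field F] [Algebra A F]
  (K : Type) [Field K] [Algebra F K]
  (L : Type) [Field L] [Algebra F L] [Algebra K L] [IsScalarTower F K L]

variable {A F K L} in
/-- Automorphisms over `K` preserve integrality. -/
lemma isInt_smul (σ : L ≃ₐ[K] L) {x : L} (hx : IsInt A F L x) : IsInt A F L (σ x) := by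
  refine IsInt.map (σ : L →+* L) (fun a => ?_) hx
  simp only [toL_apply]
  rw [IsScalarTower.algebraMap_apply F K L]
  exact σ.commutes _

variable {A F K L} in
lemma smul_mem_intUnits (σ : L ≃ₐ[K] L) {x : Lˣ} (hx : x ∈ intUnits A F L) :
    σ • x ∈ intUnits A F L := by
  refine ⟨isInt_smul (A := A) (F := F) σ hx.1, ?_⟩
  have : ((σ • x)⁻¹ : Lˣ) = σ • x⁻¹ := (smul_inv' σ x).symm
  rw [this]
  exact isInt_smul (A := A) (F := F) σ hx.2

variable {A F K L} in
/-- If `z` is integral and `∏_{i<d} σ^i z = 1` (`d ≥ 1`), then `z` is an integral unit. -/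
lemma mem_intUnits_of_prod_eq_one (σ : L ≃ₐ[K] L) (d : ℕ) (z : Lˣ)
    (hz : IsInt A F L (z : L)) (hprod : ∏ i ∈ Finset.range (d + 1), (σ ^ i) • z = 1) :
    z ∈ intUnits A F L := by
  refine ⟨hz, ?_⟩
  rw [Finset.prod_range_succ', pow_zero, one_smul] at hprod
  have hinv : (z⁻¹ : Lˣ) = ∏ i ∈ Finset.range d, (σ ^ (i + 1)) • z := by
    rw [eq_comm, ← mul_eq_one_iff_eq_inv]
    exact hprod
  rw [hinv, Units.coe_prod]
  have : ∀ (s : Finset ℕ), IsInt A F L (∏ i ∈ s, (((σ ^ (i + 1)) • z : Lˣ) : L)) := by
    intro s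
    induction s using Finset.cons_induction with
    | empty => simpa using isInt_one A F L
    | cons a s ha ih =>
      rw [Finset.prod_cons]
      exact (isInt_smul (A := A) (F := F) (σ ^ (a + 1)) hz).mul ih
  exact this _

end Galois

/-- (LF4) automorphisms preserve the valuation. -/
theorem galoisInv : GaloisInvStatement := by
  intro A F _ _ _ _ _ _ _ _ _ K _ _ _ L _ _ _ _ _ σ x
  haveI : FiniteDimensional F L := FiniteDimensional.trans F K L
  haveI : Finite (L ≃ₐ[K] L) := inferInstance
  obtain ⟨d, hd⟩ : ∃ d : ℕ, σ ^ (d + 1) = 1 := by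
    have hpos : 0 < orderOf σ := orderOf_pos σ
    refine ⟨orderOf σ - 1, ?_⟩
    rw [Nat.sub_add_cancel hpos, pow_orderOf_eq_one]
  set y : Lˣ := σ • x / x with hy
  have hsmul : ∀ i : ℕ, (σ ^ i) • y = ((σ ^ (i + 1)) • x) / ((σ ^ i) • x) := by
    intro i
    rw [hy, smul_div', smul_smul, ← pow_succ]
  have hprod : ∏ i ∈ Finset.range (d + 1), (σ ^ i) • y = 1 := by
    simp_rw [hsmul]
    rw [Finset.prod_range_div (fun i => (σ ^ i) • x), hd, pow_zero, one_smul, div_self']
  have hprod' : ∏ i ∈ Finset.range (d + 1), (σ ^ i) • y⁻¹ = 1 := by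
    simp_rw [smul_inv']
    rw [Finset.prod_inv_distrib, hprod, inv_one]
  rcases intOrInv A F L (y : L) with h | h
  · exact mem_intUnits_of_prod_eq_one (A := A) (F := F) σ d y h hprod
  · have h' : IsInt A F L ((y⁻¹ : Lˣ) : L) := by rwa [Units.val_inv_eq_inv_val]
    have := mem_intUnits_of_prod_eq_one (A := A) (F := F) σ d y⁻¹ h' hprod'
    simpa using (intUnits A F L).inv_mem this

/-! ## LF2 -/

/-- (LF2) existence of a uniformizer. -/
theorem existsUnif : ExistsUnifStatement := by
  intro A F _ _ _ _ _ _ _ _ _ L _ _ _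
  letI : Algebra A L := (toL A F L).toAlgebra
  haveI : IsScalarTower A F L := IsScalarTower.of_algebraMap_eq (fun _ => rfl)
  haveI := lf0_isDVR A F L
  haveI := lf0_isFractionRing A F L
  obtain ⟨ϖ, hϖ⟩ := IsDiscreteValuationRing.exists_irreducible (integralClosure A L)
  have hinj : Function.Injective (algebraMap (integralClosure A L) L) :=
    IsFractionRing.injective _ _
  have hϖ0 : (algebraMap (integralClosure A L) L ϖ) ≠ 0 := by
    rw [Ne, map_eq_zero_iff _ hinj]
    exact hϖ.ne_zero
  -- units of `B` give integral units of `L`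
  have hunit : ∀ u : (integralClosure A L)ˣ,
      Units.map (algebraMap (integralClosure A L) L).toMonoidHom u ∈ intUnits A F L := by
    intro u
    refine ⟨(u : integralClosure A L).2, ?_⟩
    have : ((Units.map (algebraMap (integralClosure A L) L).toMonoidHom u)⁻¹ : Lˣ) =
        Units.map (algebraMap (integralClosure A L) L).toMonoidHom u⁻¹ := (map_inv _ _).symm
    rw [this]
    exact ((u⁻¹ : (integralClosure A L)ˣ) : integralClosure A L).2
  refine ⟨Units.mk0 _ hϖ0, ϖ.2, ?_, ?_⟩
  · rintro ⟨-, h2⟩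
    rw [Units.val_inv_eq_inv_val, Units.val_mk0] at h2
    apply hϖ.not_isUnit
    refine isUnit_iff_exists_inv.mpr ⟨⟨_, h2⟩, ?_⟩
    apply hinj
    simp only [map_mul, map_one]
    exact mul_inv_cancel₀ hϖ0
  · intro x
    obtain ⟨a, b, hb, hab⟩ := IsFractionRing.div_surjective (A := integralClosure A L) (x : L)
    have hb0 : b ≠ 0 := nonZeroDivisors.ne_zero hb
    have ha0 : a ≠ 0 := by
      rintro rfl
      rw [map_zero, zero_div] at hab
      exact x.ne_zero hab.symm
    obtain ⟨m, u, hu⟩ := IsDiscreteValuationRing.eq_unit_mul_pow_irreducible ha0 hϖ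
    obtain ⟨k, v, hv⟩ := IsDiscreteValuationRing.eq_unit_mul_pow_irreducible hb0 hϖ
    refine ⟨(m : ℤ) - k, ?_⟩
    have hx : x = Units.map (algebraMap (integralClosure A L) L).toMonoidHom (u / v) *
        (Units.mk0 _ hϖ0) ^ ((m : ℤ) - k) := by
      apply Units.ext
      rw [← hab, hu, hv]
      simp only [map_mul, map_pow, Units.val_mul, Units.coe_map, RingHom.toMonoidHom_eq_coe,
        MonoidHom.coe_coe, Units.val_zpow_eq_zpow_val, Units.val_mk0, map_div, Units.val_div_eq_div_val]
      rw [zpow_sub₀ hϖ0, zpow_natCast, zpow_natCast]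
      have hv0 : (algebraMap (integralClosure A L) L) (v : integralClosure A L) ≠ 0 := by
        rw [Ne, map_eq_zero_iff _ hinj]
        exact v.ne_zero
      field_simp
    have : x * (Units.mk0 _ hϖ0) ^ (-((m : ℤ) - k)) =
        Units.map (algebraMap (integralClosure A L) L).toMonoidHom (u / v) := by
      rw [hx, mul_assoc, ← zpow_add]
      simp
    rw [this]
    exact hunit _

end Fermat.Agent.S55.Local.H904
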