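import Fermat.Agent.S55.Local.Spec
import Fermat.Prelude.Thm_Algebra_finite_maximalSpectrum_and_bijective_localization_of_module_finite
import Fermat.Prelude.Thm_IsLocalRing_isAdicComplete_of_module_finite

/-!
# S55, layer L, piece LF0 (helper904): the ring of integers of a local field

Setting: `A` a complete DVR with finite residue field, `F = Frac A` of characteristic `0`,
`L / F` a finite extension, and ANY `Algebra A L` instance compatible with the tower
(`IsScalarTower A F L`).  `B := integralClosure A L`.

Main results (all about `B = integralClosure A L`):
* `lf0_finite`            : `Module.Finite A B`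
* `lf0_isDedekindDomain`  : `IsDedekindDomain B`
* `lf0_isFractionRing`    : `IsFractionRing B L`
* `lf0_isLocalRing`       : `IsLocalRing B`
* `lf0_isDVR`             : `IsDiscreteValuationRing B`
* `lf0_finite_residueField` : `Finite (ResidueField B)`
* `lf0_isAdicComplete`    : `IsAdicComplete (maximalIdeal B) B`

To use them with the conventions of `Defs.lean`:
`letI : Algebra A L := (toL A F L).toAlgebra`
`haveI : IsScalarTower A F L := IsScalarTower.of_algebraMap_eq (fun _ => rfl)`.
-/

set_option autoImplicit false
set_option linter.unusedSectionVars false
set_option linter.style.haveILetI false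

namespace Fermat.Agent.S55.Local.H904

open IsLocalRing

/-- A module-finite domain over a complete Noetherian local ring is local. -/
theorem isLocalRing_of_finite_of_complete (R : Type) [CommRing R] [IsLocalRing R]
    [IsNoetherianRing R] [IsAdicComplete (maximalIdeal R) R]
    (B : Type) [CommRing B] [IsDomain B] [Algebra R B] [Module.Finite R B] :
    IsLocalRing B := by
  classical
  obtain ⟨-, hbij, -, -⟩ :=
    Algebra.finite_maximalSpectrum_and_bijective_localization_of_module_finite (𝒪 := R) B
  have hsub : ∀ I J : MaximalSpectrum B, I = J := by
    intro I J
    by_contra hIJ
    obtain ⟨e, he⟩ := hbij.2 (Pi.single I 1)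
    have heI : algebraMap B (Localization.AtPrime I.asIdeal) e = 1 := by
      have := congrFun he I
      simpa using this
    have heJ : algebraMap B (Localization.AtPrime J.asIdeal) e = 0 := by
      have := congrFun he J
      simpa [Pi.single_eq_of_ne (Ne.symm hIJ)] using this
    have hprod : e * (1 - e) = 0 := by
      apply hbij.1
      funext K
      by_cases hK : K = I
      · subst hK
        simp [heI]
      · have : algebraMap B (Localization.AtPrime K.asIdeal) e = 0 := by
          have := congrFun he K
          simpa [Pi.single_eq_of_ne hK] using this
        simp [this]
    rcases mul_eq_zero.mp hprod with h0 | h1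
    · rw [h0, map_zero] at heI
      exact zero_ne_one heI
    · have : e = 1 := (sub_eq_zero.mp h1).symm
      rw [this, map_one] at heJ
      exact one_ne_zero heJ
  obtain ⟨m, hm⟩ := Ideal.exists_maximal B
  refine IsLocalRing.of_unique_max_ideal ⟨m, hm, fun m' hm' => ?_⟩
  exact congrArg MaximalSpectrum.asIdeal (hsub ⟨m', hm'⟩ ⟨m, hm⟩)

section Generic

variable (A F : Type) [CommRing A] [IsDomain A] [IsDiscreteValuationRing A]
  [IsAdicComplete (IsLocalRing.maximalIdeal A) A]
  [Field F] [CharZero F] [Algebra A F] [IsFractionRing A F]
  (L : Type) [Field L] [Algebra F L] [FiniteDimensional F L]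
  [Algebra A L] [IsScalarTower A F L]

include F in
theorem lf0_finite : Module.Finite A (integralClosure A L) :=
  IsIntegralClosure.finite A F L _

include F in
theorem lf0_isDedekindDomain : IsDedekindDomain (integralClosure A L) :=
  IsIntegralClosure.isDedekindDomain A F L _

include F in
theorem lf0_isFractionRing : IsFractionRing (integralClosure A L) L :=
  IsIntegralClosure.isFractionRing_of_finite_extension A F L _

include F in
theorem lf0_algebraMap_injective : Function.Injective (algebraMap A L) := by
  rw [IsScalarTower.algebraMap_eq A F L]
  exact (algebraMap F L).injective.comp (IsFractionRing.injective A F)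

include F in
theorem lf0_isLocalRing : IsLocalRing (integralClosure A L) := by
  haveI := lf0_finite A F L
  exact isLocalRing_of_finite_of_complete A (integralClosure A L)

include F in
theorem lf0_algebraMap_injective' :
    Function.Injective (algebraMap A (integralClosure A L)) := by
  intro x y hxy
  apply lf0_algebraMap_injective A F L
  have := congrArg (algebraMap (integralClosure A L) L) hxy
  simpa [← IsScalarTower.algebraMap_apply] using this

include F in
theorem lf0_not_isField : ¬ IsField (integralClosure A L) := by
  intro h
  have hA : IsField A :=
    isField_of_isIntegral_of_isField (lf0_algebraMap_injective' A F L) h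
  exact IsDiscreteValuationRing.not_isField A hA

include F in
theorem lf0_isDVR : IsDiscreteValuationRing (integralClosure A L) := by
  haveI := lf0_isLocalRing A F L
  haveI := lf0_isDedekindDomain A F L
  haveI : IsNoetherianRing (integralClosure A L) := IsDedekindRing.toIsNoetherian
  exact ((IsDiscreteValuationRing.TFAE (integralClosure A L) (lf0_not_isField A F L)).out 0 2).mpr
    (lf0_isDedekindDomain A F L)

include F in
theorem lf0_isLocalHom :
    haveI := lf0_isLocalRing A F L
    IsLocalHom (algebraMap A (integralClosure A L)) := by
  haveI : FaithfulSMul A (integralClosure A L) :=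
    (faithfulSMul_iff_algebraMap_injective _ _).mpr (lf0_algebraMap_injective' A F L)
  exact Algebra.IsIntegral.isLocalHom A (integralClosure A L)

include F in
theorem lf0_finite_residueField [Finite (ResidueField A)] :
    haveI := lf0_isLocalRing A F L
    Finite (ResidueField (integralClosure A L)) := by
  haveI := lf0_isLocalRing A F L
  haveI := lf0_isLocalHom A F L
  haveI := lf0_finite A F L
  exact IsLocalRing.ResidueField.finite_of_finite (R := A) inferInstance

include F in
theorem lf0_isAdicComplete :
    haveI := lf0_isLocalRing A F L
    IsAdicComplete (maximalIdeal (integralClosure A L)) (integralClosure A L) := by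
  haveI := lf0_isLocalRing A F L
  haveI := lf0_isLocalHom A F L
  haveI := lf0_finite A F L
  exact IsLocalRing.isAdicComplete_of_module_finite (𝒪 := A)

end Generic

end Fermat.Agent.S55.Local.H904
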